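/-
S17 / PLK leaf HG3 (incidence, T1) — abstract height engines (helper4046).

No curve appears here: only the frozen HT API, the multi-homogeneous function calculus and the Cramer
engine of helper6026 (`MHFun6026`, `Cramer6026`, `Engine6026`, vendored verbatim), and Mathlib.

* `exists_minor_ne_zero` : a matrix whose columns span a space of dimension `ρ` has a nonzero `ρ`-minor.
* `t1Engine_le`  : the Cramer height inequality in the block structure of (T1) "≤".
* `t1Engine_ge`  : the "no zero divisors" height inequality of (T1) "≥".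
-/
import Fermat.Agent.S17.PLK.Engine6026
import Fermat.Agent.S17.HT.Eval

set_option autoImplicit false

noncomputable section

namespace Fermat.Agent.S17.PLK.H4046

open Fermat.Agent.S17.HT Fermat.Agent.S17.PLK6026

open scoped Matrix

local notation "ℚ̄" => AlgebraicClosure ℚ

/-! ### Linear algebra: a nonzero maximal minor -/

section LA

variable {K : Type*} [Field K]

theorem exists_fin_linearIndependent {V : Type*} [AddCommGroup V] [Module K V]
    [FiniteDimensional K V] (s : Set V)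
    {ρ : ℕ} (h : Module.finrank K (Submodule.span K s) = ρ) :
    ∃ f : Fin ρ → V, (∀ i, f i ∈ s) ∧ LinearIndependent K f := by
  subst h
  obtain ⟨f, hf, -, hli⟩ := Submodule.exists_fun_fin_finrank_span_eq K s
  exact ⟨f, hf, hli⟩

theorem exists_minor_ne_zero {Rw Cl : Type*} [Fintype Rw] [Fintype Cl] [DecidableEq Rw]
    (T : Matrix Rw Cl K) {ρ : ℕ}
    (h : Module.finrank K (Submodule.span K (Set.range fun j : Cl => fun i : Rw => T i j)) = ρ) :
    ∃ (R : Fin ρ → Rw) (C : Fin ρ → Cl), (T.submatrix R C).det ≠ 0 := by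
  classical
  obtain ⟨f, hf, hli⟩ := exists_fin_linearIndependent _ h
  choose C hC using hf
  set M : Matrix Rw (Fin ρ) K := T.submatrix id C with hM
  have hMcol : M.col = f := by
    funext k
    rw [← hC k]
    rfl
  have hMt : LinearIndependent K (Mᵀ).row := by
    rw [Matrix.row_transpose, hMcol]
    exact hli
  have hrank : (Mᵀ).rank = ρ := by
    rw [hMt.rank_matrix, Fintype.card_fin]
  rw [Matrix.rank_eq_finrank_span_cols] at hrank
  obtain ⟨g, hg, hgli⟩ := exists_fin_linearIndependent _ hrank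
  choose R hR using hg
  set N : Matrix (Fin ρ) (Fin ρ) K := (Mᵀ).submatrix id R with hN
  have hNcol : N.col = g := by
    funext k
    rw [← hR k]
    rfl
  have hNunit : IsUnit N := by
    rw [← Matrix.linearIndependent_cols_iff_isUnit, hNcol]
    exact hgli
  have hdet : N.det ≠ 0 := ((Matrix.isUnit_iff_isUnit_det N).mp hNunit).ne_zero
  refine ⟨R, C, ?_⟩
  have hTN : T.submatrix R C = Nᵀ := by
    ext i j
    rfl
  rw [hTN, Matrix.det_transpose]
  exact hdet

/-- A linear functional on a subspace of `K^Rw` is given by a coefficient vector. -/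
theorem exists_tau {Rw : Type*} [Fintype Rw] [DecidableEq Rw] (W : Submodule K (Rw → K))
    (f : W →ₗ[K] K) :
    ∃ τ : Rw → K, ∀ (v : Rw → K) (hv : v ∈ W), ∑ i, τ i * v i = f ⟨v, hv⟩ := by
  obtain ⟨g, hg⟩ := f.exists_extend
  refine ⟨fun i => g (fun j => if i = j then 1 else 0), fun v hv => ?_⟩
  have h1 : g v = f ⟨v, hv⟩ := by
    rw [← hg]
    rfl
  rw [← h1, LinearMap.pi_apply_eq_sum_univ g v]
  refine Finset.sum_congr rfl fun i _ => ?_
  rw [smul_eq_mul, mul_comm]

end LA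

/-! ### Block structures -/

/-- Names of the four blocks of variables of (T1) "≤": the section `a`, the tensor of the points
`y`, the tensor of the pairing vectors `M`, the point `x`. -/
inductive Blk : Type
  | a | y | M | x
  deriving DecidableEq

instance instFintypeBlk : Fintype Blk := ⟨{.a, .y, .M, .x}, fun c => by cases c <;> simp⟩

/-- The index types of the four blocks. -/
def κ4 (A B C D : Type) : Blk → Type
  | .a => A
  | .y => B
  | .M => C
  | .x => D

instance instFintypeκ4 (A B C D : Type) [Fintype A] [Fintype B] [Fintype C] [Fintype D] :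
    ∀ c, Fintype (κ4 A B C D c)
  | .a => inferInstanceAs (Fintype A)
  | .y => inferInstanceAs (Fintype B)
  | .M => inferInstanceAs (Fintype C)
  | .x => inferInstanceAs (Fintype D)

/-- The family of the four block vectors. -/
def vec4 {A B C D : Type} (a : A → ℚ̄) (y : B → ℚ̄) (M : C → ℚ̄) (x : D → ℚ̄) :
    (c : Blk) → κ4 A B C D c → ℚ̄
  | .a => a
  | .y => y
  | .M => M
  | .x => x

theorem sum_blk (f : Blk → ℝ) : ∑ c, f c = f .a + f .y + f .M + f .x := by
  have : (Finset.univ : Finset Blk) = {.a, .y, .M, .x} := rfl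
  rw [this]
  simp [Finset.sum_insert]
  ring

/-- The index types of two blocks. -/
def κ2 (A B : Type) : Bool → Type
  | true => A
  | false => B

instance instFintypeκ2 (A B : Type) [Fintype A] [Fintype B] : ∀ c, Fintype (κ2 A B c)
  | true => inferInstanceAs (Fintype A)
  | false => inferInstanceAs (Fintype B)

/-- The family of two block vectors. -/
def vec2 {A B : Type} (a : A → ℚ̄) (b : B → ℚ̄) : (c : Bool) → κ2 A B c → ℚ̄
  | true => a
  | false => b

/-! ### (T1) "≤": the Cramer inequality in four blocks -/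

section Le

variable {Rw CM J I' L Sg : Type} [Fintype Rw] [Fintype CM] [Fintype J] [Fintype I'] [Fintype L]
  [Fintype Sg]

theorem t1Engine_le (ρ : ℕ) (κT : Sg → CM × J → Rw → ℚ̄) (μ' : I' → L → Rw → ℚ̄) :
    ∃ C : ℝ, ∀ (α : I' → ℚ̄) (Ty : Sg → ℚ̄) (TM : CM → ℚ̄) (X : J → ℚ̄) (γ : ℚ̄) (v : L → ℚ̄)
      (τ : Rw → ℚ̄) (W : Submodule ℚ̄ (Rw → ℚ̄)),
      Module.finrank ℚ̄ W ≤ ρ →
      (∀ β, (fun i => ∑ σ, Ty σ * κT σ β i) ∈ W) →
      (∀ l, (fun i => ∑ i', α i' * μ' i' l i) ∈ W) →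
      (∀ β : CM × J, ∑ i, τ i * ∑ σ, Ty σ * κT σ β i = TM β.1 * X β.2) →
      (∀ l, ∑ i, τ i * ∑ i', α i' * μ' i' l i = γ * v l) →
      γ ≠ 0 → v ≠ 0 →
      (∃ a : (Fin ρ → Rw) × (Fin ρ → CM × J),
        Matrix.det (Matrix.of fun i j => ∑ σ, Ty σ * κT σ (a.2 j) (a.1 i)) ≠ 0) →
      ht (fun a : (Fin ρ → Rw) × (Fin ρ → CM × J) =>
          Matrix.det (Matrix.of fun i j => ∑ σ, Ty σ * κT σ (a.2 j) (a.1 i))) + ht v ≤
        ht α + ((ρ - 1 : ℕ) : ℝ) * ht Ty + ht TM + ht X + C := by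
  classical
  let T : Rw → CM × J → ((c : Blk) → κ4 I' Sg CM J c → ℚ̄) → ℚ̄ :=
    fun i β x => ∑ σ, x .y σ * κT σ β i
  let u : L → Rw → ((c : Blk) → κ4 I' Sg CM J c → ℚ̄) → ℚ̄ :=
    fun l i x => ∑ i', x .a i' * μ' i' l i
  let π : CM × J → ((c : Blk) → κ4 I' Sg CM J c → ℚ̄) → ℚ̄ :=
    fun β x => x .M β.1 * x .x β.2
  have hT : ∀ i j, IsMHFun (Pi.single Blk.y 1) (T i j) := fun i β =>
    IsMHFun.sum Finset.univ fun σ _ =>
      (isMHFun_coord (κ := κ4 I' Sg CM J) Blk.y σ).mul_const _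
  have hu : ∀ l i, IsMHFun (Pi.single Blk.a 1) (u l i) := fun l i =>
    IsMHFun.sum Finset.univ fun i' _ =>
      (isMHFun_coord (κ := κ4 I' Sg CM J) Blk.a i').mul_const _
  have hπ : ∀ j, IsMHFun (Pi.single Blk.M 1 + Pi.single Blk.x 1) (π j) := fun β =>
    (isMHFun_coord (κ := κ4 I' Sg CM J) Blk.M β.1).mul
      (isMHFun_coord (κ := κ4 I' Sg CM J) Blk.x β.2)
  obtain ⟨C, hC⟩ := cramer_ht_le ρ _ _ _ T hT u hu π hπ
  refine ⟨C, fun α Ty TM X γ v τ W hW hTW huW hτT hτu hγ hv hμ => ?_⟩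
  have h := hC (vec4 α Ty TM X) γ v τ W hW hTW huW hτT hτu hγ hv hμ
  have e : (fun a : (Fin ρ → Rw) × (Fin ρ → CM × J) => minorFun ρ T a (vec4 α Ty TM X)) =
      fun a => Matrix.det (Matrix.of fun i j => ∑ σ, Ty σ * κT σ (a.2 j) (a.1 i)) := rfl
  rw [e, sum_blk] at h
  simp only [Pi.add_apply, Pi.single_apply, reduceCtorEq, if_true, if_false, mul_zero, mul_one,
    add_zero, zero_add, Nat.cast_one, one_mul] at h
  have e2 : vec4 α Ty TM X Blk.a = α := rfl
  have e3 : vec4 α Ty TM X Blk.y = Ty := rfl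
  have e4 : vec4 α Ty TM X Blk.M = TM := rfl
  have e5 : vec4 α Ty TM X Blk.x = X := rfl
  rw [e2, e3, e4, e5] at h
  exact h

end Le

/-! ### (T1) "≥": multiplication without zero divisors -/

section Ge

variable {I' J I CM Sg : Type} [Fintype I'] [Fintype J] [Fintype I] [Fintype CM] [Fintype Sg]

theorem t1Engine_ge (μ : I' → J → I → ℚ̄) (κ : Sg → CM → I → ℚ̄)
    (hμ : ∀ (α : I' → ℚ̄) (W : CM × J → ℚ̄),
      (∀ c i, ∑ i', ∑ j, α i' * W (c, j) * μ i' j i = 0) → α = 0 ∨ W = 0) :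
    ∃ C : ℝ, ∀ (Ty : Sg → ℚ̄) (TM : CM → ℚ̄) (X : J → ℚ̄) (α : I' → ℚ̄) (W : CM × J → ℚ̄)
      (A : ℚ̄), A ≠ 0 → TM ≠ 0 → α ≠ 0 →
      (∀ c, TM c = A * ∑ j, W (c, j) * X j) →
      (∀ c i, ∑ i', ∑ j, α i' * W (c, j) * μ i' j i = ∑ σ, Ty σ * κ σ c i) →
      ht TM + ht α ≤ ht Ty + ht X + C := by
  classical
  -- (3) the bilinear upper bound
  have h3 : ∃ C₁ : ℝ, ∀ (W : CM × J → ℚ̄) (X : J → ℚ̄),
      ht (fun c => ∑ j, W (c, j) * X j) ≤ ht W + ht X + C₁ := by
    have hf : ∀ c : CM, IsMHFun (fun _ : Bool => 1)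
        (fun x : (b : Bool) → κ2 (CM × J) J b → ℚ̄ => ∑ j, x true (c, j) * x false j) := by
      intro c
      refine (IsMHFun.sum Finset.univ fun j _ =>
        (isMHFun_coord (κ := κ2 (CM × J) J) true (c, j)).mul
          (isMHFun_coord (κ := κ2 (CM × J) J) false j)).of_eq ?_
      funext b
      cases b <;> simp
    obtain ⟨C₁, hC₁⟩ := ht_le_of_isMHFun _ _ hf
    refine ⟨C₁, fun W X => ?_⟩
    have h := hC₁ (vec2 W X)
    rw [Fintype.sum_bool] at h
    have e1 : vec2 W X true = W := rfl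
    have e2 : vec2 W X false = X := rfl
    rw [e1, e2] at h
    simp only [Nat.cast_one, one_mul] at h
    exact h
  -- (4) the lower bound: no zero divisors
  have h4 : ∃ C₂ : ℝ, ∀ (α : I' → ℚ̄) (W : CM × J → ℚ̄), α ≠ 0 → W ≠ 0 →
      ht α + ht W ≤ ht (fun p : CM × I => ∑ i', ∑ j, α i' * W (p.1, j) * μ i' j p.2) + C₂ := by
    have hf : ∀ p : CM × I, IsMHFun (fun _ : Bool => 1)
        (fun x : (b : Bool) → κ2 I' (CM × J) b → ℚ̄ =>
          ∑ i', ∑ j, x true i' * x false (p.1, j) * μ i' j p.2) := by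
      intro p
      refine (IsMHFun.sum Finset.univ fun i' _ => IsMHFun.sum Finset.univ fun j _ =>
        ((isMHFun_coord (κ := κ2 I' (CM × J)) true i').mul
          (isMHFun_coord (κ := κ2 I' (CM × J)) false (p.1, j))).mul_const _).of_eq ?_
      funext b
      cases b <;> simp
    obtain ⟨C₂, hC₂⟩ := ht_ge_of_isMHFun_of_zeroLocus
      (∅ : Set (MvPolynomial (Σ c, κ2 I' (CM × J) c) ℚ̄)) (by simp) _ _ hf (by
        intro x _ hx
        rcases hμ (x true) (x false) (fun c i => hx (c, i)) with h | h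
        · exact ⟨true, h⟩
        · exact ⟨false, h⟩)
    refine ⟨C₂, fun α W hα hW => ?_⟩
    have h := hC₂ (vec2 α W) (by simp) (by
      intro b
      cases b
      · exact hW
      · exact hα)
    rw [Fintype.sum_bool] at h
    have e1 : vec2 α W true = α := rfl
    have e2 : vec2 α W false = W := rfl
    rw [e1, e2] at h
    simp only [Nat.cast_one, one_mul] at h
    exact h
  -- (5) the linear upper bound
  have h5 : ∃ C₃ : ℝ, ∀ Ty : Sg → ℚ̄,
      ht (fun p : CM × I => ∑ σ, Ty σ * κ σ p.1 p.2) ≤ ht Ty + C₃ := by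
    obtain ⟨C₃, hC₃⟩ := ht_mulVec_le (Matrix.of fun (p : CM × I) (σ : Sg) => κ σ p.1 p.2)
    refine ⟨C₃, fun Ty => ?_⟩
    have h := hC₃ Ty
    have e : (Matrix.of fun (p : CM × I) (σ : Sg) => κ σ p.1 p.2).mulVec Ty =
        fun p : CM × I => ∑ σ, Ty σ * κ σ p.1 p.2 := by
      funext p
      simp only [Matrix.mulVec, dotProduct, Matrix.of_apply]
      exact Finset.sum_congr rfl fun σ _ => mul_comm _ _
    rw [e] at h
    exact h
  obtain ⟨C₁, hC₁⟩ := h3
  obtain ⟨C₂, hC₂⟩ := h4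
  obtain ⟨C₃, hC₃⟩ := h5
  refine ⟨C₁ + C₂ + C₃, fun Ty TM X α W A hA hTM hα h1 h2 => ?_⟩
  have hW : W ≠ 0 := by
    rintro rfl
    apply hTM
    funext c
    rw [h1 c]
    simp
  have e1 : ht TM = ht (fun c => ∑ j, W (c, j) * X j) := by
    have hTMeq : TM = A • (fun c => ∑ j, W (c, j) * X j) := by
      funext c
      rw [h1 c]
      rfl
    rw [hTMeq, ht_smul _ hA]
  have e2 : (fun p : CM × I => ∑ i', ∑ j, α i' * W (p.1, j) * μ i' j p.2) =
      fun p : CM × I => ∑ σ, Ty σ * κ σ p.1 p.2 := by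
    funext p
    exact h2 p.1 p.2
  have i1 := hC₁ W X
  have i2 := hC₂ α W hα hW
  have i3 := hC₃ Ty
  rw [e2] at i2
  linarith

end Ge

end Fermat.Agent.S17.PLK.H4046
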