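/-
S17 / PLK leaf HG3 (incidence, T1) — geometric preliminaries (helper4046).

GENERIC setting (any algebraically closed field `K` of characteristic zero, any function field `F`):
Riemann–Roch spaces, the section values `secVal`, points of an effective divisor, the pairing `Lam`.
Uses only statements of the frozen FND skeleton, the Prelude and the PLK definitions.
-/
import Fermat.Agent.S17.PLK.Defs
import Fermat.Agent.S17.PLK.HG3.Abs4046

set_option autoImplicit false
set_option linter.unusedSectionVars false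
set_option linter.style.haveILetI false

noncomputable section

open AlgebraicCurve

namespace Fermat.Agent.S17.PLK.H4046

open Fermat.Agent.S17.FND Fermat.Agent.S17.H Fermat.Agent.S17.PLK

section Geom

variable {K F : Type*} [Field K] [Field F] [Algebra K F]

/-! ### Riemann–Roch spaces -/

theorem one_mem_RR_zero : (1 : F) ∈ riemannRochSpace (0 : Divisor K F) := by
  rw [mem_riemannRochSpace_iff]
  intro v
  right
  simp

theorem mul_mem_RR' {D E : Divisor K F} {f g : F} (hf : f ∈ riemannRochSpace D)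
    (hg : g ∈ riemannRochSpace E) : f * g ∈ riemannRochSpace (D + E) := by
  rw [mem_riemannRochSpace_iff] at hf hg ⊢
  intro v
  by_cases hf0 : f = 0
  · left
    simp [hf0]
  by_cases hg0 : g = 0
  · left
    simp [hg0]
  right
  rw [v.ord_mul hf0 hg0, Finsupp.add_apply]
  have h1 := (hf v).resolve_left hf0
  have h2 := (hg v).resolve_left hg0
  linarith

theorem prod_mem_RR {ι : Type*} (s : Finset ι) (f : ι → F) (D : ι → Divisor K F)
    (h : ∀ i ∈ s, f i ∈ riemannRochSpace (D i)) :
    ∏ i ∈ s, f i ∈ riemannRochSpace (∑ i ∈ s, D i) := by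
  classical
  induction s using Finset.induction_on with
  | empty => simpa using (one_mem_RR_zero (K := K) (F := F))
  | insert a s ha ih =>
    rw [Finset.prod_insert ha, Finset.sum_insert ha]
    exact mul_mem_RR' (h a (Finset.mem_insert_self a s))
      (ih fun i hi => h i (Finset.mem_insert_of_mem hi))

theorem RR_mono {D E : Divisor K F} (h : D ≤ E) : riemannRochSpace D ≤ riemannRochSpace E := by
  intro f hf
  rw [mem_riemannRochSpace_iff] at hf ⊢
  intro v
  rcases hf v with h0 | h1
  · left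
    exact h0
  · right
    have := Finsupp.le_def.mp h v
    linarith

theorem algebraMap_mul_mem_RR {D : Divisor K F} (c : K) {f : F} (hf : f ∈ riemannRochSpace D) :
    algebraMap K F c * f ∈ riemannRochSpace D := by
  rw [← Algebra.smul_def]
  exact (riemannRochSpace D).smul_mem c hf

theorem sum_algebraMap_mul_mem_RR {ι : Type*} {D : Divisor K F} (s : Finset ι) (c : ι → K)
    (f : ι → F) (hf : ∀ i ∈ s, f i ∈ riemannRochSpace D) :
    ∑ i ∈ s, algebraMap K F (c i) * f i ∈ riemannRochSpace D :=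
  (riemannRochSpace D).sum_mem fun i hi => algebraMap_mul_mem_RR (c i) (hf i hi)

/-! ### The pairing `Lam` -/

theorem Lam_add_left (δ : Place K F → Place K F → ℝ) (D D' E : Divisor K F) :
    Lam δ (D + D') E = Lam δ D E + Lam δ D' E := by
  unfold Lam
  rw [Finsupp.sum_add_index']
  · intro P
    simp
  · intro P n n'
    simp [Finsupp.sum, add_mul, Finset.sum_add_distrib]

theorem Lam_zero_left (δ : Place K F → Place K F → ℝ) (E : Divisor K F) :
    Lam δ (0 : Divisor K F) E = 0 := by
  unfold Lam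
  simp

theorem Lam_pt_pt (δ : Place K F → Place K F → ℝ) (P Q : Place K F) :
    Lam δ (pt P) (pt Q) = δ P Q := by
  unfold Lam
  simp [Finsupp.sum_single_index]

theorem Lam_sum_pt (δ : Place K F → Place K F → ℝ) {ι : Type*} (s : Finset ι)
    (P : ι → Place K F) (Q : Place K F) :
    Lam δ (∑ i ∈ s, pt (P i)) (pt Q) = ∑ i ∈ s, δ (P i) Q := by
  classical
  induction s using Finset.induction_on with
  | empty => simpa using Lam_zero_left δ (pt Q)
  | insert a s ha ih =>
    rw [Finset.sum_insert ha, Finset.sum_insert ha, Lam_add_left, ih, Lam_pt_pt]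

/-! ### Section values -/

variable [IsAlgClosed K] [CharZero K] [IsCurveOver K F] [Algebra.EssFiniteType K F]

theorem ord_unif (Q : Place K F) : Q.ord (unif Q) = 1 := by
  unfold unif
  have h : ∃ t : F, Q.ord t = 1 := exists_uniformizer Q
  rw [dif_pos h]
  exact h.choose_spec

theorem unif_ne_zero (Q : Place K F) : unif Q ≠ 0 := by
  intro h
  have := ord_unif Q
  rw [h, Place.ord_zero] at this
  exact zero_ne_one this

theorem secVal_arg_mem {A : Divisor K F} (Q : Place K F) {s : F}
    (hs : s ∈ riemannRochSpace A) : s * unif Q ^ (A Q) ∈ Q.toValuationSubring := by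
  rw [mem_valuationSubring_iff]
  by_cases hs0 : s = 0
  · simp [hs0]
  have h1 := ((mem_riemannRochSpace_iff.mp hs) Q).resolve_left hs0
  rw [Q.ord_mul hs0 (zpow_ne_zero _ (unif_ne_zero Q)), Q.ord_zpow, ord_unif]
  linarith

theorem gsecVal_zero (A : Divisor K F) (Q : Place K F) : secVal A Q (0 : F) = 0 := by
  unfold secVal
  rw [zero_mul]
  have := evalAt_algebraMap Q (0 : K)
  simpa using this

theorem gsecVal_add (A : Divisor K F) (Q : Place K F) {s s' : F}
    (hs : s ∈ riemannRochSpace A) (hs' : s' ∈ riemannRochSpace A) :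
    secVal A Q (s + s') = secVal A Q s + secVal A Q s' := by
  unfold secVal
  rw [add_mul]
  exact evalAt_add Q (secVal_arg_mem Q hs) (secVal_arg_mem Q hs')

theorem gsecVal_smul (A : Divisor K F) (Q : Place K F) (c : K) {s : F}
    (hs : s ∈ riemannRochSpace A) :
    secVal A Q (algebraMap K F c * s) = c * secVal A Q s := by
  unfold secVal
  rw [mul_assoc, evalAt_mul Q (Q.algebraMap_mem' c) (secVal_arg_mem Q hs), evalAt_algebraMap]

theorem gsecVal_sub (A : Divisor K F) (Q : Place K F) {s s' : F}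
    (hs : s ∈ riemannRochSpace A) (hs' : s' ∈ riemannRochSpace A) :
    secVal A Q (s - s') = secVal A Q s - secVal A Q s' := by
  have e : s - s' = s + algebraMap K F (-1) * s' := by
    rw [map_neg, map_one]
    ring
  rw [e, gsecVal_add A Q hs (algebraMap_mul_mem_RR _ hs'), gsecVal_smul A Q _ hs']
  ring

theorem gsecVal_mul (A A' : Divisor K F) (Q : Place K F) {s s' : F}
    (hs : s ∈ riemannRochSpace A) (hs' : s' ∈ riemannRochSpace A') :
    secVal (A + A') Q (s * s') = secVal A Q s * secVal A' Q s' := by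
  unfold secVal
  rw [← evalAt_mul Q (secVal_arg_mem Q hs) (secVal_arg_mem Q hs')]
  congr 1
  rw [Finsupp.add_apply, zpow_add₀ (unif_ne_zero Q)]
  ring

theorem gsecVal_eq_zero_iff (A : Divisor K F) (Q : Place K F) {s : F}
    (hs : s ∈ riemannRochSpace A) :
    secVal A Q s = 0 ↔ s ∈ riemannRochSpace (A - pt Q) := by
  unfold secVal
  rw [evalAt_eq_zero_iff Q (secVal_arg_mem Q hs), mem_riemannRochSpace_iff]
  constructor
  · intro h v
    by_cases hs0 : s = 0
    · left
      exact hs0
    right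
    have hA := ((mem_riemannRochSpace_iff.mp hs) v).resolve_left hs0
    rcases h with h | h
    · exfalso
      rcases mul_eq_zero.mp h with h | h
      · exact hs0 h
      · exact zpow_ne_zero _ (unif_ne_zero Q) h
    · rw [Q.ord_mul hs0 (zpow_ne_zero _ (unif_ne_zero Q)), Q.ord_zpow, ord_unif] at h
      by_cases hv : v = Q
      · subst hv
        simp only [Finsupp.coe_sub, Pi.sub_apply, Finsupp.single_eq_same]
        linarith
      · have hne : (pt Q : Divisor K F) v = 0 := Finsupp.single_eq_of_ne hv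
        simp only [Finsupp.coe_sub, Pi.sub_apply, hne]
        linarith
  · intro h
    by_cases hs0 : s = 0
    · left
      simp [hs0]
    right
    have hQ := (h Q).resolve_left hs0
    rw [Q.ord_mul hs0 (zpow_ne_zero _ (unif_ne_zero Q)), Q.ord_zpow, ord_unif]
    simp only [Finsupp.coe_sub, Pi.sub_apply, Finsupp.single_eq_same] at hQ
    linarith

theorem gsecVal_sum {ι : Type*} (A : Divisor K F) (Q : Place K F) (s : Finset ι) (c : ι → K)
    (f : ι → F) (hf : ∀ i ∈ s, f i ∈ riemannRochSpace A) :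
    secVal A Q (∑ i ∈ s, algebraMap K F (c i) * f i) = ∑ i ∈ s, c i * secVal A Q (f i) := by
  classical
  induction s using Finset.induction_on with
  | empty => simpa using gsecVal_zero A Q
  | insert a s ha ih =>
    rw [Finset.sum_insert ha, Finset.sum_insert ha,
      gsecVal_add A Q (algebraMap_mul_mem_RR (c a) (hf a (Finset.mem_insert_self a s)))
        (sum_algebraMap_mul_mem_RR s c f fun i hi => hf i (Finset.mem_insert_of_mem hi)),
      gsecVal_smul A Q (c a) (hf a (Finset.mem_insert_self a s)),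
      ih fun i hi => hf i (Finset.mem_insert_of_mem hi)]

theorem gsecVal_prod {ι : Type*} (Q : Place K F) (s : Finset ι) (D : ι → Divisor K F)
    (f : ι → F) (hf : ∀ i ∈ s, f i ∈ riemannRochSpace (D i)) :
    secVal (∑ i ∈ s, D i) Q (∏ i ∈ s, f i) = ∏ i ∈ s, secVal (D i) Q (f i) := by
  classical
  induction s using Finset.induction_on with
  | empty =>
    simp only [Finset.sum_empty, Finset.prod_empty]
    unfold secVal
    have := evalAt_algebraMap Q (1 : K)
    simpa using this
  | insert a s ha ih =>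
    rw [Finset.sum_insert ha, Finset.prod_insert ha, Finset.prod_insert ha,
      gsecVal_mul (D a) (∑ i ∈ s, D i) Q (hf a (Finset.mem_insert_self a s))
        (prod_mem_RR s f D fun i hi => hf i (Finset.mem_insert_of_mem hi)),
      ih fun i hi => hf i (Finset.mem_insert_of_mem hi)]

/-! ### Points of an effective divisor -/

theorem exists_points : ∀ (n : ℕ) (Z : Divisor K F), 0 ≤ Z → Divisor.degree Z = n →
    ∃ P : Fin n → Place K F, Z = ∑ i, pt (P i)
  | 0, Z, hZ, hd => ⟨Fin.elim0, by
      simpa using eq_zero_of_nonneg_of_degree hZ (by simpa using hd)⟩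
  | n + 1, Z, hZ, hd => by
    have hex : ∃ v, 0 < Z v := by
      by_contra hcon
      have hZ0 : Z = 0 := by
        ext v
        have h1 := Finsupp.le_def.mp hZ v
        have h2 : Z v ≤ 0 := not_lt.mp fun h => hcon ⟨v, h⟩
        simp only [Finsupp.coe_zero, Pi.zero_apply] at h1 ⊢
        omega
      rw [hZ0, map_zero] at hd
      have : (0 : ℤ) < ((n + 1 : ℕ) : ℤ) := by positivity
      omega
    obtain ⟨v, hv⟩ := hex
    have hZ' : 0 ≤ Z - pt v := by
      rw [Finsupp.le_def]
      intro w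
      have h1 := Finsupp.le_def.mp hZ w
      simp only [Finsupp.coe_zero, Pi.zero_apply] at h1
      by_cases hw : w = v
      · subst hw
        simp only [Finsupp.coe_zero, Pi.zero_apply, Finsupp.coe_sub, Pi.sub_apply,
          Finsupp.single_eq_same]
        omega
      · have hne : (pt v : Divisor K F) w = 0 := Finsupp.single_eq_of_ne hw
        simp only [Finsupp.coe_zero, Pi.zero_apply, Finsupp.coe_sub, Pi.sub_apply, hne]
        omega
    have hd' : Divisor.degree (Z - pt v) = n := by
      rw [map_sub, hd, degree_pt]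
      push_cast
      ring
    obtain ⟨P, hP⟩ := exists_points n (Z - pt v) hZ' hd'
    refine ⟨Fin.cons v P, ?_⟩
    rw [Fin.sum_univ_succ]
    simp only [Fin.cons_zero, Fin.cons_succ]
    rw [← hP]
    abel

end Geom

/-! ### Generic set-up: levels, bases, coordinates -/

/-- Generic version of the data used by the PLK route: a base place `P₀`, the level `m`, sections `φ`
(of `O(m P₀)`) and a basis of every `L(j P₀)`. -/
structure GSetup (K F : Type*) [Field K] [Field F] [Algebra K F] where
  /-- the base place -/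
  P₀ : Place K F
  /-- the level of the embedding -/
  m : ℕ
  /-- the projective dimension -/
  r : ℕ
  /-- the embedding sections -/
  φ : Fin (r + 1) → F
  /-- the dimensions of the spaces `L(j P₀)` -/
  d : ℕ → ℕ
  /-- bases of the spaces `L(j P₀)` -/
  b : ∀ j : ℕ, Module.Basis (Fin (d j)) K (riemannRochSpace ((j : ℤ) • pt P₀))

namespace GSetup

section Basic

variable {K F : Type*} [Field K] [Field F] [Algebra K F] (G : GSetup K F)

/-- The divisor `n · P₀`. -/
abbrev lvl (n : ℕ) : Divisor K F := (n : ℤ) • pt G.P₀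

/-- `V_n = L(n P₀)`. -/
abbrev V (n : ℕ) : Submodule K F := riemannRochSpace (G.lvl n)

/-- The basis elements, in the function field. -/
def psi (n : ℕ) (j : Fin (G.d n)) : F := (G.b n j : F)

open Classical in
/-- Coordinates in the basis of `V_n` (junk `0` outside `V_n`). -/
def coords (n : ℕ) (s : F) : Fin (G.d n) → K :=
  if h : s ∈ G.V n then ⇑((G.b n).repr ⟨s, h⟩) else 0

/-- `b_c(y) = y_s φ_t − y_t φ_s`. -/
def bsec (y : Fin (G.r + 1) → K) (c : Fin (G.r + 1) × Fin (G.r + 1)) : F :=
  algebraMap K F (y c.1) * G.φ c.2 - algebraMap K F (y c.2) * G.φ c.1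

/-- The constant sections with `b_c(y) = ∑ s, y s • Bc c s`. -/
def Bc (c : Fin (G.r + 1) × Fin (G.r + 1)) (s : Fin (G.r + 1)) : F :=
  (if s = c.1 then G.φ c.2 else 0) - (if s = c.2 then G.φ c.1 else 0)

/-- Coordinates of a place in the sections `φ`. -/
def xphi (Q : Place K F) : Fin (G.r + 1) → K := fun j => secVal (G.lvl G.m) Q (G.φ j)

/-- The pairing vector. -/
def Mvec (P Q : Place K F) : Fin (G.r + 1) × Fin (G.r + 1) → K :=
  fun c => secVal (G.lvl G.m - pt P) Q (G.bsec (G.xphi P) c)

/-- Values at `Q` of the basis of `V_n`. -/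
def xvec (n : ℕ) (Q : Place K F) : Fin (G.d n) → K :=
  fun j => secVal (G.lvl n) Q (G.psi n j)

/-- The generating sections of `L(N P₀ − ∑ P_i)`. -/
def sgen (k N : ℕ) (y : Fin k → Fin (G.r + 1) → K)
    (β : (Fin k → Fin (G.r + 1) × Fin (G.r + 1)) × Fin (G.d (N - k * G.m))) : F :=
  (∏ i, G.bsec (y i) (β.1 i)) * G.psi (N - k * G.m) β.2

theorem lvl_add (i j : ℕ) : G.lvl (i + j) = G.lvl i + G.lvl j := by
  simp only [lvl, Nat.cast_add, add_smul]

theorem lvl_zero : G.lvl 0 = 0 := by
  simp [lvl]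

theorem sum_lvl (n j : ℕ) : ∑ _k : Fin n, G.lvl j = G.lvl (n * j) := by
  simp only [lvl, Finset.sum_const, Finset.card_univ, Fintype.card_fin, Nat.cast_mul]
  rw [← natCast_zsmul, smul_smul]

theorem psi_mem (n : ℕ) (j : Fin (G.d n)) : G.psi n j ∈ G.V n := (G.b n j).2

theorem one_mem_V_zero : (1 : F) ∈ G.V 0 := by
  have h := one_mem_RR_zero (K := K) (F := F)
  rwa [← G.lvl_zero] at h

theorem mul_mem_V {i j : ℕ} {s t : F} (hs : s ∈ G.V i) (ht : t ∈ G.V j) : s * t ∈ G.V (i + j) := by
  have h := mul_mem_RR' hs ht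
  rwa [← G.lvl_add] at h

theorem coords_of_mem (n : ℕ) {s : F} (h : s ∈ G.V n) :
    G.coords n s = (G.b n).equivFun ⟨s, h⟩ := by
  unfold coords
  rw [dif_pos h]
  rfl

theorem coords_add (n : ℕ) {s t : F} (hs : s ∈ G.V n) (ht : t ∈ G.V n) :
    G.coords n (s + t) = G.coords n s + G.coords n t := by
  rw [G.coords_of_mem n hs, G.coords_of_mem n ht, G.coords_of_mem n ((G.V n).add_mem hs ht)]
  exact map_add (G.b n).equivFun ⟨s, hs⟩ ⟨t, ht⟩

theorem coords_smul (n : ℕ) (c : K) {s : F} (hs : s ∈ G.V n) :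
    G.coords n (algebraMap K F c * s) = c • G.coords n s := by
  rw [G.coords_of_mem n hs, G.coords_of_mem n (algebraMap_mul_mem_RR c hs), ← map_smul]
  congr 1
  apply Subtype.ext
  simp [Algebra.smul_def]

theorem coords_zero (n : ℕ) : G.coords n 0 = 0 := by
  rw [G.coords_of_mem n (G.V n).zero_mem]
  exact map_zero (G.b n).equivFun

theorem coords_sum (n : ℕ) {ι : Type*} (t : Finset ι) (c : ι → K) (f : ι → F)
    (hf : ∀ i ∈ t, f i ∈ G.V n) :
    G.coords n (∑ i ∈ t, algebraMap K F (c i) * f i) = ∑ i ∈ t, c i • G.coords n (f i) := by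
  classical
  induction t using Finset.induction_on with
  | empty => simpa using G.coords_zero n
  | insert a s ha ih =>
    rw [Finset.sum_insert ha, Finset.sum_insert ha,
      G.coords_add n (algebraMap_mul_mem_RR (c a) (hf a (Finset.mem_insert_self a s)))
        (sum_algebraMap_mul_mem_RR s c f fun i hi => hf i (Finset.mem_insert_of_mem hi)),
      G.coords_smul n (c a) (hf a (Finset.mem_insert_self a s)),
      ih fun i hi => hf i (Finset.mem_insert_of_mem hi)]

theorem sum_coords_mul_psi (n : ℕ) {s : F} (hs : s ∈ G.V n) :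
    ∑ i, algebraMap K F (G.coords n s i) * G.psi n i = s := by
  rw [G.coords_of_mem n hs]
  have h := (G.b n).sum_equivFun ⟨s, hs⟩
  have h2 : (∑ i, (((G.b n).equivFun ⟨s, hs⟩ i • (G.b n) i : G.V n) : F)) = s := by
    rw [← Submodule.coe_sum]
    exact congrArg Subtype.val h
  refine Eq.trans (Finset.sum_congr rfl fun i _ => ?_) h2
  rw [Submodule.coe_smul, Algebra.smul_def]
  rfl

theorem eq_zero_of_coords_eq_zero (n : ℕ) {s : F} (hs : s ∈ G.V n) (h : G.coords n s = 0) :
    s = 0 := by
  rw [← G.sum_coords_mul_psi n hs, h]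
  simp

theorem coords_psi (n : ℕ) (i : Fin (G.d n)) : G.coords n (G.psi n i) = Pi.single i 1 := by
  classical
  rw [G.coords_of_mem n (G.psi_mem n i)]
  funext j
  have h := (G.b n).equivFun_self i j
  rw [Pi.single_apply]
  have e : (⟨G.psi n i, G.psi_mem n i⟩ : G.V n) = G.b n i := rfl
  rw [e, h]
  by_cases hij : i = j
  · simp [hij]
  · simp [hij, Ne.symm hij]

theorem coords_sum_psi (n : ℕ) (α : Fin (G.d n) → K) :
    G.coords n (∑ i, algebraMap K F (α i) * G.psi n i) = α := by
  classical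
  rw [G.coords_sum n Finset.univ α (G.psi n) fun i _ => G.psi_mem n i]
  funext j
  simp only [Finset.sum_apply, Pi.smul_apply, G.coords_psi, Pi.single_apply, smul_eq_mul,
    mul_ite, mul_one, mul_zero, Finset.sum_ite_eq, Finset.mem_univ, if_true]

theorem sum_psi_mem (n : ℕ) (α : Fin (G.d n) → K) :
    ∑ i, algebraMap K F (α i) * G.psi n i ∈ G.V n :=
  sum_algebraMap_mul_mem_RR Finset.univ α (G.psi n) fun i _ => G.psi_mem n i

/-- Expansion of a product in the first factor. -/
theorem coords_mul_left {p q N' : ℕ} (hpq : p + q = N') {a e : F} (ha : a ∈ G.V p)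
    (he : e ∈ G.V q) :
    G.coords N' (a * e) = ∑ i, G.coords p a i • G.coords N' (G.psi p i * e) := by
  subst hpq
  conv_lhs => rw [← G.sum_coords_mul_psi p ha, Finset.sum_mul]
  simp only [mul_assoc]
  exact G.coords_sum (p + q) Finset.univ _ _ fun i _ => G.mul_mem_V (G.psi_mem p i) he

/-- Expansion of a product in the second factor. -/
theorem coords_mul_right {p q N' : ℕ} (hpq : p + q = N') {a e : F} (ha : a ∈ G.V p)
    (he : e ∈ G.V q) :
    G.coords N' (a * e) = ∑ j, G.coords q e j • G.coords N' (a * G.psi q j) := by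
  subst hpq
  conv_lhs => rw [← G.sum_coords_mul_psi q he, Finset.mul_sum]
  have e1 : ∀ j, a * (algebraMap K F (G.coords q e j) * G.psi q j) =
      algebraMap K F (G.coords q e j) * (a * G.psi q j) := fun j => by ring
  simp only [e1]
  exact G.coords_sum (p + q) Finset.univ _ _ fun j _ => G.mul_mem_V ha (G.psi_mem q j)

/-- The inverse of the coordinate map, `K^{d_N} → F`. -/
def unc (N : ℕ) : (Fin (G.d N) → K) →ₗ[K] F :=
  (G.V N).subtype ∘ₗ (G.b N).equivFun.symm.toLinearMap

theorem unc_coords (N : ℕ) {s : F} (hs : s ∈ G.V N) : G.unc N (G.coords N s) = s := by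
  rw [G.coords_of_mem N hs]
  simp [unc]

theorem unc_mem (N : ℕ) (v : Fin (G.d N) → K) : G.unc N v ∈ G.V N :=
  ((G.b N).equivFun.symm v).2

theorem unc_injective (N : ℕ) : Function.Injective (G.unc N) := by
  intro v w h
  have h2 : (G.b N).equivFun.symm v = (G.b N).equivFun.symm w := Subtype.ext h
  exact (G.b N).equivFun.symm.injective h2

/-- The coordinates of the elements of a subspace `U ≤ V_N`. -/
def cW (N : ℕ) (U : Submodule K F) : Submodule K (Fin (G.d N) → K) := U.comap (G.unc N)

theorem coords_mem_cW (N : ℕ) {U : Submodule K F} (hU : U ≤ G.V N) {s : F} (hs : s ∈ U) :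
    G.coords N s ∈ G.cW N U := by
  show G.unc N (G.coords N s) ∈ U
  rw [G.unc_coords N (hU hs)]
  exact hs

theorem map_unc_cW (N : ℕ) {U : Submodule K F} (hU : U ≤ G.V N) :
    (G.cW N U).map (G.unc N) = U := by
  unfold cW
  rw [Submodule.map_comap_eq]
  exact inf_eq_right.mpr fun s hs => ⟨G.coords N s, G.unc_coords N (hU hs)⟩

theorem finrank_cW (N : ℕ) {U : Submodule K F} (hU : U ≤ G.V N) :
    Module.finrank K (G.cW N U) = Module.finrank K U := by
  have e := (Submodule.equivMapOfInjective (G.unc N) (G.unc_injective N) (G.cW N U)).finrank_eq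
  rw [e, G.map_unc_cW N hU]

theorem span_coords_eq_cW (N : ℕ) {U : Submodule K F} (hU : U ≤ G.V N) {ι : Type*} (f : ι → F)
    (hf : Submodule.span K (Set.range f) = U) :
    Submodule.span K (Set.range fun β => G.coords N (f β)) = G.cW N U := by
  apply Submodule.map_injective_of_injective (G.unc_injective N)
  rw [G.map_unc_cW N hU, Submodule.map_span, ← Set.range_comp]
  have e : (G.unc N ∘ fun β => G.coords N (f β)) = f := by
    funext β
    exact G.unc_coords N (hU (hf ▸ Submodule.subset_span ⟨β, rfl⟩))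
  rw [e, hf]

/-- Bilinear expansion of the coordinates of a product. -/
theorem coords_mul_expand {p q N' : ℕ} (hpq : p + q = N') (α : Fin (G.d p) → K)
    (w : Fin (G.d q) → K) (i : Fin (G.d N')) :
    G.coords N' ((∑ i', algebraMap K F (α i') * G.psi p i') *
        (∑ j, algebraMap K F (w j) * G.psi q j)) i =
      ∑ i', ∑ j, α i' * w j * G.coords N' (G.psi p i' * G.psi q j) i := by
  rw [G.coords_mul_left hpq (G.sum_psi_mem p α) (G.sum_psi_mem q w), G.coords_sum_psi p α]
  simp only [Finset.sum_apply, Pi.smul_apply, smul_eq_mul]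
  refine Finset.sum_congr rfl fun i' _ => ?_
  rw [G.coords_mul_right hpq (G.psi_mem p i') (G.sum_psi_mem q w), G.coords_sum_psi q w]
  simp only [Finset.sum_apply, Pi.smul_apply, smul_eq_mul, Finset.mul_sum]
  exact Finset.sum_congr rfl fun j _ => by ring

/-! ### The sections `b_c(y)` -/

theorem bsec_eq_sum (y : Fin (G.r + 1) → K) (c : Fin (G.r + 1) × Fin (G.r + 1)) :
    G.bsec y c = ∑ s, algebraMap K F (y s) * G.Bc c s := by
  classical
  unfold bsec Bc
  simp only [mul_sub, Finset.sum_sub_distrib, mul_ite, mul_zero, Finset.sum_ite_eq',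
    Finset.mem_univ, if_true]

theorem prod_bsec_eq_sum {n : ℕ} (y : Fin n → Fin (G.r + 1) → K)
    (c : Fin n → Fin (G.r + 1) × Fin (G.r + 1)) :
    ∏ k, G.bsec (y k) (c k) =
      ∑ σ : Fin n → Fin (G.r + 1), algebraMap K F (∏ k, y k (σ k)) * ∏ k, G.Bc (c k) (σ k) := by
  classical
  simp only [bsec_eq_sum]
  rw [Finset.prod_univ_sum, Fintype.piFinset_univ]
  refine Finset.sum_congr rfl fun σ _ => ?_
  rw [Finset.prod_mul_distrib, map_prod]

theorem Bc_mem (hφ : ∀ j, G.φ j ∈ G.V G.m) (c : Fin (G.r + 1) × Fin (G.r + 1))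
    (s : Fin (G.r + 1)) : G.Bc c s ∈ G.V G.m := by
  unfold Bc
  refine (G.V G.m).sub_mem ?_ ?_
  · split_ifs
    · exact hφ _
    · exact (G.V G.m).zero_mem
  · split_ifs
    · exact hφ _
    · exact (G.V G.m).zero_mem

theorem bsec_mem (hφ : ∀ j, G.φ j ∈ G.V G.m) (y : Fin (G.r + 1) → K)
    (c : Fin (G.r + 1) × Fin (G.r + 1)) : G.bsec y c ∈ G.V G.m := by
  unfold bsec
  exact (G.V G.m).sub_mem (algebraMap_mul_mem_RR _ (hφ _)) (algebraMap_mul_mem_RR _ (hφ _))

theorem prod_Bc_mem (hφ : ∀ j, G.φ j ∈ G.V G.m) {n : ℕ}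
    (c : Fin n → Fin (G.r + 1) × Fin (G.r + 1)) (σ : Fin n → Fin (G.r + 1)) :
    ∏ k, G.Bc (c k) (σ k) ∈ G.V (n * G.m) := by
  have h := prod_mem_RR Finset.univ (fun k => G.Bc (c k) (σ k)) (fun _ => G.lvl G.m)
    fun k _ => G.Bc_mem hφ (c k) (σ k)
  rwa [G.sum_lvl] at h

/-- Multilinear expansion of the coordinates of `∏ b_{c_k}(y_k) · e`. -/
theorem coords_prod_bsec_mul (hφ : ∀ j, G.φ j ∈ G.V G.m) {n j N' : ℕ} (hN : n * G.m + j = N')
    (y : Fin n → Fin (G.r + 1) → K) (c : Fin n → Fin (G.r + 1) × Fin (G.r + 1)) {e : F}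
    (he : e ∈ G.V j) :
    G.coords N' ((∏ k, G.bsec (y k) (c k)) * e) =
      ∑ σ : Fin n → Fin (G.r + 1),
        (∏ k, y k (σ k)) • G.coords N' ((∏ k, G.Bc (c k) (σ k)) * e) := by
  subst hN
  rw [G.prod_bsec_eq_sum, Finset.sum_mul]
  simp only [mul_assoc]
  exact G.coords_sum (n * G.m + j) Finset.univ _ _
    fun σ _ => G.mul_mem_V (G.prod_Bc_mem hφ c σ) he

end Basic

section Curve

variable {K F : Type*} [Field K] [Field F] [Algebra K F] [IsAlgClosed K] [CharZero K]
  [IsCurveOver K F] [Algebra.EssFiniteType K F] (G : GSetup K F)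

theorem degree_lvl (j : ℕ) : Divisor.degree (G.lvl j) = j := by
  rw [lvl, map_zsmul, degree_pt]
  simp

theorem d_eq (j : ℕ) : G.d j = ell (G.lvl j) := by
  unfold ell
  rw [Module.finrank_eq_card_basis (G.b j), Fintype.card_fin]

theorem d_cast {j : ℕ} (hj : 2 * (genusFF K F : ℤ) - 2 < j) :
    (G.d j : ℤ) = j + 1 - genusFF K F := by
  rw [G.d_eq, ell_eq_of_degree_gt (by rw [G.degree_lvl]; exact hj), G.degree_lvl]

theorem d_zero : G.d 0 = 1 := by
  rw [G.d_eq, G.lvl_zero]
  exact ell_zero

/-- A functional computing the section value at `Q` on `L(D) ⊆ V_N`, in coordinates. -/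
theorem exists_functional (N : ℕ) (D : Divisor K F) (hD : riemannRochSpace D ≤ G.V N)
    (Q : Place K F) :
    ∃ τ : Fin (G.d N) → K, ∀ s ∈ riemannRochSpace D,
      ∑ i, τ i * G.coords N s i = secVal D Q s := by
  classical
  let fW : G.cW N (riemannRochSpace D) →ₗ[K] K :=
    { toFun := fun w => secVal D Q (G.unc N w.1)
      map_add' := fun w w' => by
        rw [Submodule.coe_add, map_add]
        exact gsecVal_add D Q w.2 w'.2
      map_smul' := fun c w => by
        rw [Submodule.coe_smul, map_smul, Algebra.smul_def, RingHom.id_apply, smul_eq_mul]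
        exact gsecVal_smul D Q c w.2 }
  obtain ⟨τ, hτ⟩ := exists_tau _ fW
  refine ⟨τ, fun s hs => ?_⟩
  rw [hτ _ (G.coords_mem_cW N hD hs)]
  show secVal D Q (G.unc N (G.coords N s)) = _
  rw [G.unc_coords N (hD hs)]

/-! ### The sections `b_c(x(P))` and the pairing vector -/

theorem bsec_xphi_mem (hφ : ∀ j, G.φ j ∈ G.V G.m) (P : Place K F)
    (c : Fin (G.r + 1) × Fin (G.r + 1)) :
    G.bsec (G.xphi P) c ∈ riemannRochSpace (G.lvl G.m - pt P) := by
  rw [← gsecVal_eq_zero_iff _ _ (G.bsec_mem hφ _ c)]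
  unfold bsec
  rw [gsecVal_sub _ _ (algebraMap_mul_mem_RR _ (hφ _)) (algebraMap_mul_mem_RR _ (hφ _)),
    gsecVal_smul _ _ _ (hφ _), gsecVal_smul _ _ _ (hφ _)]
  unfold xphi
  ring

theorem sum_lvl_sub_pt {n : ℕ} (P : Fin n → Place K F) :
    ∑ k, (G.lvl G.m - pt (P k)) = G.lvl (n * G.m) - ∑ k, pt (P k) := by
  rw [Finset.sum_sub_distrib, G.sum_lvl]

theorem prod_bsec_xphi_mem (hφ : ∀ j, G.φ j ∈ G.V G.m) {n : ℕ} (P : Fin n → Place K F)
    (c : Fin n → Fin (G.r + 1) × Fin (G.r + 1)) :
    ∏ k, G.bsec (G.xphi (P k)) (c k) ∈ riemannRochSpace (∑ k, (G.lvl G.m - pt (P k))) :=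
  prod_mem_RR Finset.univ _ _ fun k _ => G.bsec_xphi_mem hφ (P k) (c k)

theorem secVal_prod_bsec (hφ : ∀ j, G.φ j ∈ G.V G.m) {n : ℕ} (P : Fin n → Place K F)
    (Q : Place K F) (c : Fin n → Fin (G.r + 1) × Fin (G.r + 1)) :
    secVal (∑ k, (G.lvl G.m - pt (P k))) Q (∏ k, G.bsec (G.xphi (P k)) (c k)) =
      ∏ k, G.Mvec (P k) Q (c k) :=
  gsecVal_prod Q Finset.univ _ _ fun k _ => G.bsec_xphi_mem hφ (P k) (c k)

/-! ### The divisor of zeros of a section of `O(n P₀)` -/

theorem zdiv_nonneg {n : ℕ} {a : F} (ha : a ∈ G.V n) (ha0 : a ≠ 0) : 0 ≤ divF a + G.lvl n := by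
  rw [Finsupp.le_def]
  intro v
  have h := ((mem_riemannRochSpace_iff.mp ha) v).resolve_left ha0
  simp only [Finsupp.coe_zero, Pi.zero_apply, Finsupp.coe_add, Pi.add_apply, divF_apply]
  linarith

theorem zdiv_degree (n : ℕ) (a : F) : Divisor.degree (divF a + G.lvl n) = n := by
  rw [map_add, degree_divF, G.degree_lvl, zero_add]

theorem mem_lvl_sub_zdiv (n : ℕ) (a : F) :
    a ∈ riemannRochSpace (G.lvl n - (divF a + G.lvl n)) := by
  rw [mem_riemannRochSpace_iff]
  intro v
  right
  simp only [Finsupp.coe_sub, Finsupp.coe_add, Pi.sub_apply, Pi.add_apply, divF_apply]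
  linarith

theorem secVal_self_ne_zero (n : ℕ) {a : F} (ha0 : a ≠ 0) (Q : Place K F) :
    secVal (G.lvl n - (divF a + G.lvl n)) Q a ≠ 0 := by
  intro h
  rw [gsecVal_eq_zero_iff _ _ (G.mem_lvl_sub_zdiv n a)] at h
  have h2 := ((mem_riemannRochSpace_iff.mp h) Q).resolve_left ha0
  simp only [Finsupp.coe_sub, Finsupp.coe_add, Pi.sub_apply, Pi.add_apply, divF_apply,
    Finsupp.single_eq_same] at h2
  linarith

theorem inv_mem_RR_divF {a : F} : a⁻¹ ∈ riemannRochSpace (divF a : Divisor K F) := by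
  rw [mem_riemannRochSpace_iff]
  intro v
  right
  rw [divF_apply, Place.ord_inv]

/-- The values of a basis of `V_j`, `j ≥ 2g`, do not all vanish at a place. -/
theorem xvec_ne_zero {j : ℕ} (hj : 2 * genusFF K F ≤ j) (Q : Place K F) : G.xvec j Q ≠ 0 := by
  intro h
  have h1 : G.V j ≤ riemannRochSpace (G.lvl j - pt Q) := by
    intro s hs
    rw [← G.sum_coords_mul_psi j hs]
    refine sum_algebraMap_mul_mem_RR _ _ _ fun i _ => ?_
    rw [← gsecVal_eq_zero_iff _ _ (G.psi_mem j i)]
    exact congrFun h i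
  have h2 := ell_sub_pt (D := G.lvl j) (by rw [G.degree_lvl]; exact_mod_cast hj) Q
  haveI := finite_RR (G.lvl j - pt Q)
  have h3 : ell (G.lvl j) ≤ ell (G.lvl j - pt Q) := Submodule.finrank_mono h1
  omega

end Curve

end GSetup

end Fermat.Agent.S17.PLK.H4046
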