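/-
S17 / PLK leaf HG3 (incidence, T1) — the generic core (helper4046).

`incidence_core`: the incidence identity (T1) of the PLK route for a generic set-up `G : GSetup ℚ̄ F`
over any function field `F / ℚ̄`, with the EARLIER leaves of the PLK skeleton (`ht_xphi`, `xphi_ne_zero`,
`ht_Mvec`, `Mvec_ne_zero`, `span_sgen`, `H_add`, `xvec_m_sub`, `cert_minors`) as explicit hypotheses
in skeleton shape.  Both inequalities, all places `Q` (zeros of the section and `P₀` included).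
-/
import Fermat.Agent.S17.PLK.HG3.Geom4046
import Fermat.Agent.S17.HT.Skel

set_option autoImplicit false
set_option linter.unusedSectionVars false

noncomputable section

open AlgebraicCurve

namespace Fermat.Agent.S17.PLK.H4046

open Fermat.Agent.S17.FND Fermat.Agent.S17.H Fermat.Agent.S17.HT Fermat.Agent.S17.PLK

local notation "ℚ̄" => AlgebraicClosure ℚ

variable {F : Type*} [Field F] [Algebra ℚ̄ F] [IsCurveOver ℚ̄ F] [Algebra.EssFiniteType ℚ̄ F]

/-- (T1) "≥": the product of the pairing vectors is `a · w`; multiplication has no zero divisors. -/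
theorem incidence_ge (G : GSetup ℚ̄ F) (hφ : ∀ j, G.φ j ∈ G.V G.m) (hm1 : 1 ≤ G.m)
    (h_xphi_ne : ∀ Q, G.xphi Q ≠ 0) (h_M_ne : ∀ P Q, G.Mvec P Q ≠ 0) (n : ℕ) :
    ∃ C : ℝ, ∀ a : F, a ∈ G.V n → a ≠ 0 → ∀ (Q : Place ℚ̄ F) (P : Fin n → Place ℚ̄ F),
      divF a + G.lvl n = ∑ i, pt (P i) →
      ∑ k, ht (G.Mvec (P k) Q) + ht (G.coords n a) ≤
        ∑ k, ht (G.xphi (P k)) + ht (G.xvec (n * G.m - n) Q) + C := by
  classical
  obtain ⟨q, hq_def⟩ : ∃ q, q = n * G.m - n := ⟨_, rfl⟩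
  have hq : n + q = n * G.m := by
    have : n ≤ n * G.m := Nat.le_mul_of_pos_right n hm1
    omega
  rw [← hq_def]
  obtain ⟨C, hC⟩ := t1Engine_ge (I' := Fin (G.d n)) (J := Fin (G.d q)) (I := Fin (G.d (n * G.m)))
    (CM := Fin n → Fin (G.r + 1) × Fin (G.r + 1)) (Sg := Fin n → Fin (G.r + 1))
    (fun i' j i => G.coords (n * G.m) (G.psi n i' * G.psi q j) i)
    (fun σ c i => G.coords (n * G.m) (∏ k, G.Bc (c k) (σ k)) i) (by
      intro α W h
      have key : ∀ c, (∑ i', algebraMap ℚ̄ F (α i') * G.psi n i') *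
          (∑ j, algebraMap ℚ̄ F (W (c, j)) * G.psi q j) = 0 := by
        intro c
        have hmem : (∑ i', algebraMap ℚ̄ F (α i') * G.psi n i') *
            (∑ j, algebraMap ℚ̄ F (W (c, j)) * G.psi q j) ∈ G.V (n * G.m) := by
          rw [← hq]
          exact G.mul_mem_V (G.sum_psi_mem n α) (G.sum_psi_mem q fun j => W (c, j))
        apply G.eq_zero_of_coords_eq_zero (n * G.m) hmem
        funext i
        rw [G.coords_mul_expand hq α (fun j => W (c, j)) i]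
        exact h c i
      by_cases ha' : (∑ i', algebraMap ℚ̄ F (α i') * G.psi n i') = 0
      · left
        rw [← G.coords_sum_psi n α, ha', G.coords_zero]
      · right
        funext ⟨c, j⟩
        have h0 := (mul_eq_zero.mp (key c)).resolve_left ha'
        have h1 := G.coords_sum_psi q (fun j => W (c, j))
        rw [h0, G.coords_zero] at h1
        exact (congrFun h1 j).symm)
  refine ⟨C, fun a ha ha0 Q P hZ => ?_⟩
  have hprod_mem : ∀ c : Fin n → Fin (G.r + 1) × Fin (G.r + 1),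
      ∏ k, G.bsec (G.xphi (P k)) (c k) ∈
        riemannRochSpace (G.lvl (n * G.m) - (divF a + G.lvl n)) := by
    intro c
    have h := G.prod_bsec_xphi_mem hφ P c
    rwa [G.sum_lvl_sub_pt, ← hZ] at h
  have hdiv : G.lvl (n * G.m) - (divF a + G.lvl n) + divF a = G.lvl q := by
    rw [← hq, G.lvl_add]
    abel
  have hw_mem : ∀ c : Fin n → Fin (G.r + 1) × Fin (G.r + 1),
      (∏ k, G.bsec (G.xphi (P k)) (c k)) * a⁻¹ ∈ G.V q := by
    intro c
    have h := mul_mem_RR' (hprod_mem c) (GSetup.inv_mem_RR_divF (a := a))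
    rwa [hdiv] at h
  have haw : ∀ c : Fin n → Fin (G.r + 1) × Fin (G.r + 1),
      a * ((∏ k, G.bsec (G.xphi (P k)) (c k)) * a⁻¹) = ∏ k, G.bsec (G.xphi (P k)) (c k) := by
    intro c
    field_simp
  have hdiv2 : ∑ k, (G.lvl G.m - pt (P k)) = (G.lvl n - (divF a + G.lvl n)) + G.lvl q := by
    rw [G.sum_lvl_sub_pt, ← hZ, ← hq, G.lvl_add]
    abel
  have h1 : ∀ c : Fin n → Fin (G.r + 1) × Fin (G.r + 1),
      (∏ k, G.Mvec (P k) Q (c k)) = secVal (G.lvl n - (divF a + G.lvl n)) Q a *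
        ∑ j, G.coords q ((∏ k, G.bsec (G.xphi (P k)) (c k)) * a⁻¹) j * G.xvec q Q j := by
    intro c
    rw [← G.secVal_prod_bsec hφ P Q c, hdiv2]
    conv_lhs => rw [← haw c]
    rw [gsecVal_mul _ _ Q (G.mem_lvl_sub_zdiv n a) (hw_mem c)]
    congr 1
    conv_lhs => rw [← G.sum_coords_mul_psi q (hw_mem c)]
    exact gsecVal_sum (G.lvl q) Q Finset.univ _ _ fun j _ => G.psi_mem q j
  have h2 : ∀ (c : Fin n → Fin (G.r + 1) × Fin (G.r + 1)) (i : Fin (G.d (n * G.m))),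
      ∑ i', ∑ j, G.coords n a i' *
          G.coords q ((∏ k, G.bsec (G.xphi (P k)) (c k)) * a⁻¹) j *
          G.coords (n * G.m) (G.psi n i' * G.psi q j) i =
        ∑ σ : Fin n → Fin (G.r + 1),
          (∏ k, G.xphi (P k) (σ k)) * G.coords (n * G.m) (∏ k, G.Bc (c k) (σ k)) i := by
    intro c i
    have e1 := G.coords_mul_expand hq (G.coords n a)
      (G.coords q ((∏ k, G.bsec (G.xphi (P k)) (c k)) * a⁻¹)) i
    rw [G.sum_coords_mul_psi n ha, G.sum_coords_mul_psi q (hw_mem c), haw c] at e1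
    rw [← e1]
    have e2 := G.coords_prod_bsec_mul hφ (j := 0) (N' := n * G.m) rfl
      (fun k => G.xphi (P k)) c G.one_mem_V_zero
    simp only [mul_one] at e2
    rw [e2]
    simp only [Finset.sum_apply, Pi.smul_apply, smul_eq_mul]
  have hA : secVal (G.lvl n - (divF a + G.lvl n)) Q a ≠ 0 := G.secVal_self_ne_zero n ha0 Q
  have hTM : (fun c : Fin n → Fin (G.r + 1) × Fin (G.r + 1) => ∏ k, G.Mvec (P k) Q (c k)) ≠ 0 := by
    have hex : ∀ k, ∃ c, G.Mvec (P k) Q c ≠ 0 := fun k => Function.ne_iff.mp (h_M_ne (P k) Q)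
    choose c hc using hex
    intro h
    have h' := congrFun h c
    simp only [Pi.zero_apply] at h'
    exact (Finset.prod_ne_zero_iff.mpr fun k _ => hc k) h'
  have hα : G.coords n a ≠ 0 := fun h => ha0 (G.eq_zero_of_coords_eq_zero n ha h)
  have key := hC (fun σ => ∏ k, G.xphi (P k) (σ k)) (fun c => ∏ k, G.Mvec (P k) Q (c k))
    (G.xvec q Q) (G.coords n a)
    (fun p => G.coords q ((∏ k, G.bsec (G.xphi (P k)) (p.1 k)) * a⁻¹) p.2) _ hA hTM hα h1 h2
  rw [ht_pi_prod (fun k => G.Mvec (P k) Q) (fun k => h_M_ne (P k) Q),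
    ht_pi_prod (fun k => G.xphi (P k)) (fun k => h_xphi_ne (P k))] at key
  exact key

/-- (T1) "≤": Cramer's rule on the sections `s_β(y)` + the certificate for the minors. -/
theorem incidence_le (G : GSetup ℚ̄ F) (hφ : ∀ j, G.φ j ∈ G.V G.m)
    (h_xphi_ne : ∀ Q, G.xphi Q ≠ 0) (h_M_ne : ∀ P Q, G.Mvec P Q ≠ 0) (n N : ℕ)
    (hNm : n * G.m ≤ N) (hNn : 2 * genusFF ℚ̄ F + n ≤ N)
    (h_span : ∀ P : Fin n → Place ℚ̄ F,
      Submodule.span ℚ̄ (Set.range (G.sgen n N fun i => G.xphi (P i))) =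
        riemannRochSpace (G.lvl N - ∑ i, pt (P i)))
    (h_cert : ∃ C : ℝ, ∀ P : Fin n → Place ℚ̄ F,
      ((G.d N - n : ℕ) : ℝ) * ∑ i, ht (G.xphi (P i)) ≤
        ht (fun α : (Fin (G.d N - n) → Fin (G.d N)) ×
            (Fin (G.d N - n) →
              (Fin n → Fin (G.r + 1) × Fin (G.r + 1)) × Fin (G.d (N - n * G.m))) =>
          Matrix.det (Matrix.of fun i j =>
            G.coords N (G.sgen n N (fun i => G.xphi (P i)) (α.2 j)) (α.1 i))) + C) :
    ∃ C : ℝ, ∀ a : F, a ∈ G.V n → a ≠ 0 → ∀ (Q : Place ℚ̄ F) (P : Fin n → Place ℚ̄ F),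
      divF a + G.lvl n = ∑ i, pt (P i) →
      ∑ k, ht (G.xphi (P k)) + ht (G.xvec (N - n) Q) ≤
        ht (G.coords n a) + ∑ k, ht (G.Mvec (P k) Q) + ht (G.xvec (N - n * G.m) Q) + C := by
  classical
  obtain ⟨CA, hA⟩ := t1Engine_le (Rw := Fin (G.d N)) (CM := Fin n → Fin (G.r + 1) × Fin (G.r + 1))
    (J := Fin (G.d (N - n * G.m))) (I' := Fin (G.d n)) (L := Fin (G.d (N - n)))
    (Sg := Fin n → Fin (G.r + 1)) (G.d N - n)
    (fun σ β i => G.coords N ((∏ k, G.Bc (β.1 k) (σ k)) * G.psi (N - n * G.m) β.2) i)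
    (fun i' l i => G.coords N (G.psi n i' * G.psi (N - n) l) i)
  obtain ⟨Cc, hcert⟩ := h_cert
  refine ⟨CA + Cc, fun a ha ha0 Q P hZ => ?_⟩
  have hZ0 : 0 ≤ divF a + G.lvl n := G.zdiv_nonneg ha ha0
  have hUV : riemannRochSpace (G.lvl N - (divF a + G.lvl n)) ≤ G.V N :=
    RR_mono (sub_le_self _ hZ0)
  -- dimensions
  have hdN : (G.d N : ℤ) = N + 1 - genusFF ℚ̄ F := G.d_cast (by omega)
  have hU : (Module.finrank ℚ̄ (riemannRochSpace (G.lvl N - (divF a + G.lvl n))) : ℤ) =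
      (N : ℤ) - n + 1 - genusFF ℚ̄ F := by
    have h := ell_eq_of_degree_gt (D := G.lvl N - (divF a + G.lvl n))
      (by rw [map_sub, G.degree_lvl, G.zdiv_degree]; omega)
    rw [map_sub, G.degree_lvl, G.zdiv_degree] at h
    exact h
  have hρ : Module.finrank ℚ̄ (riemannRochSpace (G.lvl N - (divF a + G.lvl n))) = G.d N - n := by
    omega
  have hρ1 : 1 ≤ G.d N - n := by omega
  have hW := G.finrank_cW N hUV
  -- the generating sections
  have hspanU : Submodule.span ℚ̄ (Set.range (G.sgen n N fun i => G.xphi (P i))) =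
      riemannRochSpace (G.lvl N - (divF a + G.lvl n)) := by
    rw [hZ]
    exact h_span P
  have hsgen_mem : ∀ β, G.sgen n N (fun i => G.xphi (P i)) β ∈
      riemannRochSpace (G.lvl N - (divF a + G.lvl n)) :=
    fun β => hspanU ▸ Submodule.subset_span ⟨β, rfl⟩
  have hNeq : n * G.m + (N - n * G.m) = N := by omega
  have hcol : ∀ β : (Fin n → Fin (G.r + 1) × Fin (G.r + 1)) × Fin (G.d (N - n * G.m)),
      (fun i => ∑ σ : Fin n → Fin (G.r + 1), (∏ k, G.xphi (P k) (σ k)) *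
        G.coords N ((∏ k, G.Bc (β.1 k) (σ k)) * G.psi (N - n * G.m) β.2) i) =
      G.coords N (G.sgen n N (fun i => G.xphi (P i)) β) := by
    intro β
    have e := G.coords_prod_bsec_mul hφ hNeq (fun k => G.xphi (P k)) β.1
      (G.psi_mem (N - n * G.m) β.2)
    unfold GSetup.sgen
    rw [e]
    funext i
    simp only [Finset.sum_apply, Pi.smul_apply, smul_eq_mul]
  have hTW : ∀ β : (Fin n → Fin (G.r + 1) × Fin (G.r + 1)) × Fin (G.d (N - n * G.m)),
      (fun i => ∑ σ : Fin n → Fin (G.r + 1), (∏ k, G.xphi (P k) (σ k)) *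
        G.coords N ((∏ k, G.Bc (β.1 k) (σ k)) * G.psi (N - n * G.m) β.2) i) ∈
      G.cW N (riemannRochSpace (G.lvl N - (divF a + G.lvl n))) := by
    intro β
    rw [hcol β]
    exact G.coords_mem_cW N hUV (hsgen_mem β)
  have hn_eq : n + (N - n) = N := by omega
  have hucol : ∀ l : Fin (G.d (N - n)),
      (fun i => ∑ i', G.coords n a i' * G.coords N (G.psi n i' * G.psi (N - n) l) i) =
      G.coords N (a * G.psi (N - n) l) := by
    intro l
    rw [G.coords_mul_left hn_eq ha (G.psi_mem (N - n) l)]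
    funext i
    simp only [Finset.sum_apply, Pi.smul_apply, smul_eq_mul]
  have hdiv1 : (G.lvl n - (divF a + G.lvl n)) + G.lvl (N - n) =
      G.lvl N - (divF a + G.lvl n) := by
    conv_rhs => rw [← hn_eq, G.lvl_add]
    abel
  have hapsi : ∀ l : Fin (G.d (N - n)),
      a * G.psi (N - n) l ∈ riemannRochSpace (G.lvl N - (divF a + G.lvl n)) := by
    intro l
    have h := mul_mem_RR' (G.mem_lvl_sub_zdiv n a) (G.psi_mem (N - n) l)
    rwa [hdiv1] at h
  have huW : ∀ l : Fin (G.d (N - n)),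
      (fun i => ∑ i', G.coords n a i' * G.coords N (G.psi n i' * G.psi (N - n) l) i) ∈
      G.cW N (riemannRochSpace (G.lvl N - (divF a + G.lvl n))) := by
    intro l
    rw [hucol l]
    exact G.coords_mem_cW N hUV (hapsi l)
  -- the functional
  obtain ⟨τ, hτ⟩ := G.exists_functional N (G.lvl N - (divF a + G.lvl n)) hUV Q
  have hdiv2 : ∑ k, (G.lvl G.m - pt (P k)) + G.lvl (N - n * G.m) =
      G.lvl N - (divF a + G.lvl n) := by
    rw [G.sum_lvl_sub_pt, ← hZ]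
    conv_rhs => rw [← hNeq, G.lvl_add]
    abel
  have hτT : ∀ β : (Fin n → Fin (G.r + 1) × Fin (G.r + 1)) × Fin (G.d (N - n * G.m)),
      ∑ i, τ i * ∑ σ : Fin n → Fin (G.r + 1), (∏ k, G.xphi (P k) (σ k)) *
        G.coords N ((∏ k, G.Bc (β.1 k) (σ k)) * G.psi (N - n * G.m) β.2) i =
      (∏ k, G.Mvec (P k) Q (β.1 k)) * G.xvec (N - n * G.m) Q β.2 := by
    intro β
    have e := hτ _ (hsgen_mem β)
    rw [← hcol β] at e
    rw [e]
    unfold GSetup.sgen
    rw [← hdiv2, gsecVal_mul _ _ Q (G.prod_bsec_xphi_mem hφ P β.1) (G.psi_mem _ β.2),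
      G.secVal_prod_bsec hφ P Q β.1]
    rfl
  have hτu : ∀ l : Fin (G.d (N - n)),
      ∑ i, τ i * ∑ i', G.coords n a i' * G.coords N (G.psi n i' * G.psi (N - n) l) i =
      secVal (G.lvl n - (divF a + G.lvl n)) Q a * G.xvec (N - n) Q l := by
    intro l
    have e := hτ _ (hapsi l)
    rw [← hucol l] at e
    rw [e, ← hdiv1, gsecVal_mul _ _ Q (G.mem_lvl_sub_zdiv n a) (G.psi_mem _ l)]
    rfl
  have hγ := G.secVal_self_ne_zero n ha0 Q
  have hv : G.xvec (N - n) Q ≠ 0 := G.xvec_ne_zero (by omega) Q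
  have hμ : ∃ a' : (Fin (G.d N - n) → Fin (G.d N)) ×
      (Fin (G.d N - n) → (Fin n → Fin (G.r + 1) × Fin (G.r + 1)) × Fin (G.d (N - n * G.m))),
      Matrix.det (Matrix.of fun i j => ∑ σ : Fin n → Fin (G.r + 1),
        (∏ k, G.xphi (P k) (σ k)) *
          G.coords N ((∏ k, G.Bc ((a'.2 j).1 k) (σ k)) * G.psi (N - n * G.m) (a'.2 j).2)
            (a'.1 i)) ≠ 0 := by
    have hspan := G.span_coords_eq_cW N hUV _ hspanU
    have hfr : Module.finrank ℚ̄ (Submodule.span ℚ̄ (Set.range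
        fun β : (Fin n → Fin (G.r + 1) × Fin (G.r + 1)) × Fin (G.d (N - n * G.m)) =>
          fun i => ∑ σ : Fin n → Fin (G.r + 1), (∏ k, G.xphi (P k) (σ k)) *
            G.coords N ((∏ k, G.Bc (β.1 k) (σ k)) * G.psi (N - n * G.m) β.2) i)) =
        G.d N - n := by
      rw [funext hcol, hspan, hW, hρ]
    obtain ⟨R, C, hdet⟩ := exists_minor_ne_zero
      (Matrix.of fun (i : Fin (G.d N))
        (β : (Fin n → Fin (G.r + 1) × Fin (G.r + 1)) × Fin (G.d (N - n * G.m))) =>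
          ∑ σ : Fin n → Fin (G.r + 1), (∏ k, G.xphi (P k) (σ k)) *
            G.coords N ((∏ k, G.Bc (β.1 k) (σ k)) * G.psi (N - n * G.m) β.2) i) hfr
    exact ⟨(R, C), hdet⟩
  have key := hA (G.coords n a) (fun σ => ∏ k, G.xphi (P k) (σ k))
    (fun c => ∏ k, G.Mvec (P k) Q (c k)) (G.xvec (N - n * G.m) Q) _ (G.xvec (N - n) Q) τ
    (G.cW N (riemannRochSpace (G.lvl N - (divF a + G.lvl n)))) (by rw [hW, hρ]) hTW huW hτT hτu
    hγ hv hμ
  have hc := hcert P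
  have hminor : (fun α' : (Fin (G.d N - n) → Fin (G.d N)) ×
      (Fin (G.d N - n) → (Fin n → Fin (G.r + 1) × Fin (G.r + 1)) × Fin (G.d (N - n * G.m))) =>
        Matrix.det (Matrix.of fun i j =>
          G.coords N (G.sgen n N (fun i => G.xphi (P i)) (α'.2 j)) (α'.1 i))) =
      fun α' => Matrix.det (Matrix.of fun i j => ∑ σ : Fin n → Fin (G.r + 1),
        (∏ k, G.xphi (P k) (σ k)) *
          G.coords N ((∏ k, G.Bc ((α'.2 j).1 k) (σ k)) * G.psi (N - n * G.m) (α'.2 j).2)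
            (α'.1 i)) := by
    funext α'
    congr 1
    ext i j
    exact (congrFun (hcol (α'.2 j)) (α'.1 i)).symm
  rw [hminor] at hc
  rw [ht_pi_prod (fun k => G.xphi (P k)) (fun k => h_xphi_ne (P k)),
    ht_pi_prod (fun k => G.Mvec (P k) Q) (fun k => h_M_ne (P k) Q)] at key
  have hcast : ((G.d N - n - 1 : ℕ) : ℝ) = ((G.d N - n : ℕ) : ℝ) - 1 := by
    rw [Nat.cast_sub hρ1]
    simp
  rw [hcast] at key
  linarith

/-- (PT), iterated: `H_{j m} = j · H_m + O(1)`. -/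
theorem pt_mul (G : GSetup ℚ̄ F) (hm : 2 * genusFF ℚ̄ F + 1 ≤ G.m)
    (h_Hadd : ∀ a b, 2 * genusFF ℚ̄ F ≤ a → 2 * genusFF ℚ̄ F ≤ b → ∃ C : ℝ, ∀ Q : Place ℚ̄ F,
      |ht (G.xvec (a + b) Q) - ht (G.xvec a Q) - ht (G.xvec b Q)| ≤ C) :
    ∀ j : ℕ, 1 ≤ j → ∃ C : ℝ, ∀ Q : Place ℚ̄ F,
      |ht (G.xvec (j * G.m) Q) - j * ht (G.xvec G.m Q)| ≤ C := by
  intro j hj
  induction j, hj using Nat.le_induction with
  | base =>
    refine ⟨0, fun Q => ?_⟩
    rw [one_mul]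
    simp
  | succ j hj ih =>
    obtain ⟨C, hC⟩ := ih
    have h0 : G.m ≤ j * G.m := Nat.le_mul_of_pos_left G.m hj
    obtain ⟨C', hC'⟩ := h_Hadd (j * G.m) G.m (by omega) (by omega)
    refine ⟨C + C', fun Q => ?_⟩
    have e : (j + 1) * G.m = j * G.m + G.m := Nat.succ_mul j G.m
    rw [e]
    have a1 := abs_le.mp (hC Q)
    have a2 := abs_le.mp (hC' Q)
    push_cast
    rw [abs_le]
    constructor <;> linarith

/-- **The incidence identity (T1)** for a generic set-up, with the earlier leaves of the PLK skeleton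
as hypotheses. -/
theorem incidence_core (G : GSetup ℚ̄ F) (hm : 2 * genusFF ℚ̄ F + 1 ≤ G.m)
    (hφ : ∀ j, G.φ j ∈ G.V G.m) (hXf : Place ℚ̄ F → ℝ) (δ : Place ℚ̄ F → Place ℚ̄ F → ℝ)
    (h_xphi : ∀ Q, ht (G.xphi Q) = hXf Q) (h_xphi_ne : ∀ Q, G.xphi Q ≠ 0)
    (h_M : ∀ P Q, ht (G.Mvec P Q) = hXf P + hXf Q - δ P Q) (h_M_ne : ∀ P Q, G.Mvec P Q ≠ 0)
    (n : ℕ) (hn : 2 * genusFF ℚ̄ F ≤ n)
    (h_span : ∀ N, (n + 1) * G.m + 2 * genusFF ℚ̄ F ≤ N → ∀ P : Fin n → Place ℚ̄ F,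
      Submodule.span ℚ̄ (Set.range (G.sgen n N fun i => G.xphi (P i))) =
        riemannRochSpace (G.lvl N - ∑ i, pt (P i)))
    (h_Hadd : ∀ a b, 2 * genusFF ℚ̄ F ≤ a → 2 * genusFF ℚ̄ F ≤ b → ∃ C : ℝ, ∀ Q : Place ℚ̄ F,
      |ht (G.xvec (a + b) Q) - ht (G.xvec a Q) - ht (G.xvec b Q)| ≤ C)
    (h_xm : ∃ C : ℝ, ∀ Q : Place ℚ̄ F, |ht (G.xvec G.m Q) - hXf Q| ≤ C)
    (h_cert : ∀ N, (n + 1) * G.m + 2 * genusFF ℚ̄ F ≤ N → ∃ C : ℝ, ∀ P : Fin n → Place ℚ̄ F,
      ((G.d N - n : ℕ) : ℝ) * ∑ i, ht (G.xphi (P i)) ≤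
        ht (fun α : (Fin (G.d N - n) → Fin (G.d N)) ×
            (Fin (G.d N - n) →
              (Fin n → Fin (G.r + 1) × Fin (G.r + 1)) × Fin (G.d (N - n * G.m))) =>
          Matrix.det (Matrix.of fun i j =>
            G.coords N (G.sgen n N (fun i => G.xphi (P i)) (α.2 j)) (α.1 i))) + C) :
    ∃ C : ℝ, ∀ a : F, a ∈ G.V n → a ≠ 0 → ∀ Q : Place ℚ̄ F,
      |Lam δ (divF a + G.lvl n) (pt Q) - ht (G.coords n a) - ht (G.xvec n Q)| ≤ C := by
  rcases Nat.eq_zero_or_pos n with rfl | hn1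
  · -- `n = 0`: everything vanishes
    refine ⟨0, fun a ha ha0 Q => ?_⟩
    have hZ : divF a + G.lvl 0 = 0 :=
      eq_zero_of_nonneg_of_degree (G.zdiv_nonneg ha ha0) (by simpa using G.zdiv_degree 0 a)
    rw [hZ, Lam_zero_left]
    have : Subsingleton (Fin (G.d 0)) := by
      rw [G.d_zero]
      infer_instance
    rw [ht_of_subsingleton, ht_of_subsingleton]
    simp
  · obtain ⟨N, hNdef⟩ : ∃ N, N = (n + 1) * G.m + 2 * genusFF ℚ̄ F := ⟨_, rfl⟩
    have hm1 : 1 ≤ G.m := by omega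
    have hnm : n ≤ n * G.m := Nat.le_mul_of_pos_right n hm1
    have hsucc : (n + 1) * G.m = n * G.m + G.m := Nat.succ_mul n G.m
    have hNm : n * G.m ≤ N := by omega
    have hNn : 2 * genusFF ℚ̄ F + n ≤ N := by omega
    have hq2 : 2 * genusFF ℚ̄ F ≤ n * G.m - n := by
      have h1 : n * G.m - n = n * (G.m - 1) := (Nat.mul_sub_one n G.m).symm
      have h2 : G.m - 1 ≤ n * (G.m - 1) := Nat.le_mul_of_pos_left _ hn1
      omega
    obtain ⟨Cge, hge⟩ := incidence_ge G hφ hm1 h_xphi_ne h_M_ne n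
    obtain ⟨Cle, hle⟩ := incidence_le G hφ h_xphi_ne h_M_ne n N hNm hNn (h_span N hNdef.ge)
      (h_cert N hNdef.ge)
    obtain ⟨c₁, h₁⟩ := h_xm
    obtain ⟨c₂, h₂⟩ := pt_mul G hm h_Hadd n hn1
    obtain ⟨c₃, h₃⟩ := h_Hadd (n * G.m - n) n hq2 hn
    obtain ⟨c₄, h₄⟩ := h_Hadd (N - n * G.m) (n * G.m - n) (by omega) hq2
    have e3 : n * G.m - n + n = n * G.m := by omega
    have e4 : N - n * G.m + (n * G.m - n) = N - n := by omega
    rw [e3] at h₃
    rw [e4] at h₄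
    refine ⟨|Cge| + |Cle| + n * c₁ + c₂ + c₃ + c₄, fun a ha ha0 Q => ?_⟩
    obtain ⟨P, hP⟩ := exists_points n (divF a + G.lvl n) (G.zdiv_nonneg ha ha0)
      (G.zdiv_degree n a)
    have ge := hge a ha ha0 Q P hP
    have le := hle a ha ha0 Q P hP
    rw [hP, Lam_sum_pt]
    simp only [h_M, h_xphi, Finset.sum_sub_distrib, Finset.sum_add_distrib, Finset.sum_const,
      Finset.card_univ, Fintype.card_fin, nsmul_eq_mul] at ge le
    have a1 := abs_le.mp (h₁ Q)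
    have a2 := abs_le.mp (h₂ Q)
    have a3 := abs_le.mp (h₃ Q)
    have a4 := abs_le.mp (h₄ Q)
    have hn0 : (0 : ℝ) ≤ n := Nat.cast_nonneg n
    have b1 : (n : ℝ) * ht (G.xvec G.m Q) - n * hXf Q ≤ n * c₁ := by
      rw [← mul_sub]
      exact mul_le_mul_of_nonneg_left a1.2 hn0
    have b2 : -(n * c₁) ≤ (n : ℝ) * ht (G.xvec G.m Q) - n * hXf Q := by
      rw [← mul_sub, ← mul_neg]
      exact mul_le_mul_of_nonneg_left a1.1 hn0
    have hc1 := le_abs_self Cge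
    have hc2 := le_abs_self Cle
    have hc3 := abs_nonneg Cge
    have hc4 := abs_nonneg Cle
    rw [abs_le]
    constructor <;> linarith

end Fermat.Agent.S17.PLK.H4046
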