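/-
S17 / PLK leaf HG3 `incidence` (T1) — helper4046: the leaf from the EARLIER leaves as hypotheses.

`incidence_of`: the statement of the leaf `incidence` of `Fermat/Agent/S17/PLK/Skel.lean` (origin/helper2397)
for a PLK set-up `S`, with the eight earlier leaves it uses (`ht_xphi`, `xphi_ne_zero`, `ht_Mvec`,
`Mvec_ne_zero`, `span_sgen`, `H_add`, `xvec_m_sub`, `cert_minors`) as explicit hypotheses in skeleton shape.
This file does NOT import `PLK/Skel.lean` (only `PLK/Defs.lean` and the generic core), so the skeleton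
can import it.
-/
import Fermat.Agent.S17.PLK.Defs
import Fermat.Agent.S17.PLK.HG3.Core4046

set_option autoImplicit false

noncomputable section

open AlgebraicCurve ModularCurve

namespace Fermat.Agent.S17.PLK.H4046

open Fermat.Agent.S17.FND Fermat.Agent.S17.H Fermat.Agent.S17.HT Fermat.Agent.S17.PLK

variable {F₀ : IntermediateField ℚ (LaurentSeries ℚ)}
  [IsCurveOver Qbar (FB F₀)] [Algebra.EssFiniteType Qbar (FB F₀)]

/-- The generic set-up attached to a PLK set-up: same place, level, sections and bases. -/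
def gOf (S : Setup F₀) : GSetup Qbar (FB F₀) where
  P₀ := S.P₀
  m := S.m
  r := S.r
  φ := S.φ
  d := dim S
  b := lvlBasis S

/-- HG3 from the earlier leaves, as explicit hypotheses (skeleton shapes). -/
theorem incidence_of (S : Setup F₀)
    (h_xphi : ∀ Q : Place Qbar (FB F₀), ht (xphi S Q) = hX S.φ Q)
    (h_xphi_ne : ∀ Q : Place Qbar (FB F₀), xphi S Q ≠ 0)
    (h_M : ∀ P Q : Place Qbar (FB F₀),
      ht (Mvec S P Q) = hX S.φ P + hX S.φ Q - delta S.φ P Q)
    (h_M_ne : ∀ P Q : Place Qbar (FB F₀), Mvec S P Q ≠ 0)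
    (h_span : ∀ (k N : ℕ), (k + 1) * S.m + 2 * genusFF Qbar (FB F₀) ≤ N →
      ∀ P : Fin k → Place Qbar (FB F₀),
        Submodule.span Qbar (Set.range (sgen S k N fun i => xphi S (P i))) =
          riemannRochSpace (lvlDiv S N - ∑ i, pt (P i)))
    (h_Hadd : ∀ a b : ℕ, 2 * genusFF Qbar (FB F₀) ≤ a → 2 * genusFF Qbar (FB F₀) ≤ b →
      ∃ C : ℝ, ∀ Q : Place Qbar (FB F₀),
        |ht (xvec S (a + b) Q) - ht (xvec S a Q) - ht (xvec S b Q)| ≤ C)
    (h_xm : ∃ C : ℝ, ∀ Q : Place Qbar (FB F₀), |ht (xvec S S.m Q) - hX S.φ Q| ≤ C)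
    (h_cert : ∀ (k N : ℕ), (k + 1) * S.m + 2 * genusFF Qbar (FB F₀) ≤ N →
      ∃ C : ℝ, ∀ P : Fin k → Place Qbar (FB F₀),
        ((dim S N - k : ℕ) : ℝ) * ∑ i, ht (xphi S (P i)) ≤
          ht (fun α : (Fin (dim S N - k) → Fin (dim S N)) ×
              (Fin (dim S N - k) →
                (Fin k → Fin (S.r + 1) × Fin (S.r + 1)) × Fin (dim S (N - k * S.m))) =>
            Matrix.det (Matrix.of fun i j =>
              coords S N (sgen S k N (fun i => xphi S (P i)) (α.2 j)) (α.1 i))) + C)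
    (n : ℕ) (hn : 2 * genusFF Qbar (FB F₀) ≤ n) :
    ∃ C : ℝ, ∀ a : FB F₀, a ∈ V S n → a ≠ 0 → ∀ Q : Place Qbar (FB F₀),
      |Lam (delta S.φ) (divF a + lvlDiv S n) (pt Q) - ht (coords S n a) - ht (xvec S n Q)| ≤ C :=
  incidence_core (gOf S) S.hm
    (fun j => by
      have h : S.φ j ∈ Submodule.span Qbar (Set.range S.φ) :=
        Submodule.subset_span (Set.mem_range_self j)
      rw [S.basis.2] at h
      exact h)
    (hX S.φ) (delta S.φ) h_xphi h_xphi_ne h_M h_M_ne n hn
    (fun N hN P => h_span n N hN P) h_Hadd h_xm (fun N hN => h_cert n N hN)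

end Fermat.Agent.S17.PLK.H4046
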